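import Fermat.Agent.RT.MazurQ.EigenClass
import Fermat.Agent.RT.AtP.Module
import Fermat.Agent.RT.MazurP.LocalE
import Fermat.Agent.OrdinaryAtP.Conn.Main

/-!
# Inertia without the eigenvalue one: a form of level `M`

If some inertia element at `p` has `trace ≠ det + 1`, every eigen class of level `p M` is moved by
it. If all of them die under both degeneracy maps, an inertia element inverting `ζ` acts as `-1`,
which is impossible; otherwise the image consists of eigen classes of level `M`.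
-/

set_option autoImplicit false
set_option synthInstance.maxHeartbeats 400000
set_option maxHeartbeats 4000000

noncomputable section

namespace Fermat.Agent.RT.Lift59.AtP

open ModularCurve AlgebraicCurve Fermat.Agent.Semistable Fermat.Agent.Arith
open Fermat.Agent.RT.Mazur Fermat.Agent.RT.MazurP Fermat.Agent.RT.AtP Fermat.Agent.EC.Rep

variable {p : ℕ} [Fact p.Prime] {M : ℕ} [NeZero M] {A : ValuationSubring QBar}

/-- The form, from a moving inertia element. -/
theorem hasForm_of_moved (hA : A.LiesOverPrime p) (hp2 : p ≠ 2) (hpM : ¬ p ∣ M)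
    (G : ℕ → Prop) (a : ℕ → ℕ) (hG : ∀ l, l.Prime → G l → ¬ l ∣ p * M)
    (T : Finset ℕ) (hT : ∀ l, l.Prime → l ∉ T → G l)
    (hES : GaloisReps.CongruenceProperty (p * M) p) (hESM : GaloisReps.CongruenceProperty M p)
    {x₀ : JZero (p * M)} (hx₀ : x₀ ≠ 0) (hpx₀ : p • x₀ = 0)
    (hx₀e : ∀ l (hl : l.Prime), G l → heckeOperatorBar (p * M) ⟨l, hl⟩ x₀ = a l • x₀)
    (r : GQ →* Matrix (Fin 2) (Fin 2) (ZMod p))
    (hfin : ∃ L : IntermediateField ℚ QBar, FiniteDimensional ℚ L ∧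
      ∀ σ : GQ, (∀ z ∈ L, σ z = z) → r σ = 1)
    (hspan : Submodule.span (ZMod p) (Set.range r) = ⊤)
    (hfrob : ∀ l, l.Prime → G l → ∀ A' : ValuationSubring QBar, A'.LiesOverPrime l →
      ∀ σ : GQ, A'.IsFrobeniusAt σ l → (r σ).trace = a l ∧ (r σ).det = l)
    (hdet : ∀ σ : GQ, (r σ).det = (cyclotomicHom p σ : ZMod p))
    {τ₁ : GQ} (hτ₁ : τ₁ ∈ A.inertiaSubgroupIn ℚ) (hbad : (r τ₁).trace ≠ (r τ₁).det + 1) :
    HasCong M p G a := by
  classical
  have hp : p.Prime := Fact.out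
  have : CharP (Res A) p := residueField_charP hA hp
  have : FF.IsFunctionField (Res A) (KM A M) :=
    isFunctionField_KM A (natCast_res_ne_zero hA hp hpM)
  have hS := setup hA hp hpM
  have hGN : ∀ l, l.Prime → G l → ¬ l ∣ p * M * p := fun l hl hl' h =>
    (hl.dvd_mul.mp h).elim (hG l hl hl') fun h' => hG l hl hl' (h'.trans (dvd_mul_right p M))
  set ψ := eigRep (p * M) p G a with hψ
  have hquad : ∀ (g : GQ) (v : eigTors (p * M) p G a),
      ψ g (ψ g v) - (r g).trace • ψ g v + (r g).det • v = 0 :=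
    eigRep_quadratic hES hGN T hT r hfin hfrob
  let v₀ : eigTors (p * M) p G a := ⟨x₀, hpx₀, hx₀e⟩
  have hv₀ : v₀ ≠ 0 := fun h => hx₀ (congrArg Subtype.val h)
  -- every class is moved
  have hmoved : ∀ v : eigTors (p * M) p G a,
      (v : JZero (p * M)) ∈ OrdinaryAtP.movedGroup A (p * M) p := by
    intro v
    set t := (r τ₁).trace
    set d := (r τ₁).det
    have hc : t - 1 - d ≠ 0 := fun h => hbad (by linear_combination h)
    set y := (t - 1 - d)⁻¹ • (ψ τ₁ v - (t - 1) • v) with hy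
    have hyv : ψ τ₁ y - y = v := by
      have h := hquad τ₁ v
      rw [hy, map_smul, map_sub, map_smul, ← smul_sub]
      rw [show ψ τ₁ (ψ τ₁ v) - (t - 1) • ψ τ₁ v - (ψ τ₁ v - (t - 1) • v) = (t - 1 - d) • v by
        linear_combination (norm := module) h, inv_smul_smul₀ hc]
    refine AddSubgroup.subset_closure ⟨τ₁, hτ₁, (y : JZero (p * M)), 1,
      by rw [pow_one]; exact y.2.1, ?_⟩
    conv_rhs => rw [← hyv]
    rw [AddSubgroupClass.coe_sub, coe_eigRep]
  let j : eigTors (p * M) p G a →+ Pic0.torsion QBar (FB (p * M)) p :=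
    AddMonoidHom.mk' (fun v => ⟨v, Pic0.mem_torsion.mpr (by rw [natCast_zsmul]; exact v.2.1)⟩)
      fun _ _ => rfl
  have hU : ∀ v, OrdinaryAtP.Conn.HasUnitFn A M p hpM (j v) := fun v =>
    OrdinaryAtP.Conn.hasUnitFn_of_mem_moved hS (hmoved v)
  by_cases hall : ∀ v, OrdinaryAtP.Conn.degMap M p hpM p (j v) = 0
  · exfalso
    obtain ⟨ζ₀, hζ₀⟩ := HasEnoughRootsOfUnity.exists_primitiveRoot QBar p
    set ζ : QBarˣ := (hζ₀.isUnit hp.ne_zero).unit with hζdef
    have hζ : IsPrimitiveRoot ζ p :=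
      IsPrimitiveRoot.coe_units_iff.mp (by simpa [hζdef] using hζ₀)
    obtain ⟨τ₀, hτ₀, hτζ⟩ := OrdinaryAtP.Conn.exists_inertia_inv_zeta hA hζ
    have hneg : ∀ v, ψ τ₀ v = -v := fun v => by
      refine eq_neg_of_add_eq_zero_left (Subtype.ext ?_)
      rw [AddSubgroup.coe_add, coe_eigRep]
      exact OrdinaryAtP.Conn.smul_add_eq_zero hS hζ hτ₀ hτζ (hU v) (hall v)
    have hd : (r τ₀).det = -1 := by
      have hz : (ζ : QBar) = ζ₀ := by simp [hζdef]
      have h := cyclotomicHom_spec (n := p) τ₀ hζ₀.pow_eq_one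
      rw [← hz, hτζ] at h
      rw [hz] at h
      have he := hζ₀.pow_inj (by have := hp.two_le; omega) (ZMod.val_lt _) h
      rw [hdet, ← ZMod.natCast_zmod_val (cyclotomicHom p τ₀ : ZMod p), ← he,
        Nat.cast_sub hp.one_le, ZMod.natCast_self, Nat.cast_one, zero_sub]
    have ht : (r τ₀).trace = 0 := by
      have h := hquad τ₀ v₀
      rw [hneg (ψ τ₀ v₀), hneg v₀, neg_neg, hd] at h
      have h' : (r τ₀).trace • v₀ = 0 := by linear_combination (norm := module) h
      exact (smul_eq_zero.mp h').resolve_right hv₀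
    obtain ⟨U, -, -, -, -, hnon⟩ := exists_submodule_kernel ψ r hspan ⊤
      (fun _ _ _ => trivial) (fun h => hv₀ ((Submodule.mem_bot (ZMod p)).mp
        (h ▸ (Submodule.mem_top (x := v₀))))) fun g v _ => hquad g v
    obtain ⟨v, -, hv⟩ := hnon τ₀ (fun c hc => by
      rw [hc, Matrix.trace_smul, Matrix.trace_one, Fintype.card_fin, smul_eq_mul] at ht
      have hc0 : c = 0 := (mul_eq_zero.mp (by push_cast at ht; exact ht)).resolve_right
        (two_ne_zero_zmod hp2)
      rw [hc, hc0, zero_smul, Matrix.det_zero] at hd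
      exact one_ne_zero (neg_eq_zero.mp hd.symm)) (-1)
    exact hv (by rw [neg_one_smul]; exact hneg v)
  -- a class of level `M`
  push Not at hall
  obtain ⟨v₁, hv₁⟩ := hall
  obtain ⟨D, hDσ, hDne⟩ : ∃ D : Pic0.torsion QBar (FB (p * M)) p →+ JZero M,
      (∀ (σ : GQ) v, D (j (ψ σ v)) = σ • D (j v)) ∧ D (j v₁) ≠ 0 := by
    let f := OrdinaryAtP.Conn.degMap M p hpM p
    let D₁ : Pic0.torsion QBar (FB (p * M)) p →+ JZero M :=
      AddMonoidHom.mk' (fun z => ((f z).1 : JZero M)) fun x y => by simp [map_add]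
    let D₂ : Pic0.torsion QBar (FB (p * M)) p →+ JZero M :=
      AddMonoidHom.mk' (fun z => ((f z).2 : JZero M)) fun x y => by simp [map_add]
    by_cases h1 : D₁ (j v₁) = 0
    · exact ⟨D₂, fun σ v => (OrdinaryAtP.Conn.degMap_smul hpM σ (j v) (j (ψ σ v)) rfl).2,
        fun h2 => hv₁ (Prod.ext (Subtype.ext h1) (Subtype.ext h2))⟩
    · exact ⟨D₁, fun σ v => (OrdinaryAtP.Conn.degMap_smul hpM σ (j v) (j (ψ σ v)) rfl).1, h1⟩
  let D' : eigTors (p * M) p G a →+ JZero M := D.comp j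
  have hpD : ∀ v, p • D' v = 0 := fun v => by
    rw [← map_nsmul, show p • v = 0 from Subtype.ext v.2.1, map_zero]
  refine MazurQ.hasCong_of_eigenclass hDne (hpD v₁) fun l hl hGl => ?_
  obtain ⟨A', hA'⟩ := Arith.exists_liesOverPrime hl
  obtain ⟨σ, hσ⟩ := Arith.exists_isFrobeniusAt hA' hl
  obtain ⟨u, hσu⟩ : ∃ u, ψ σ u = v₁ := ⟨ψ σ⁻¹ v₁,
    (LinearMap.congr_fun (map_mul ψ σ σ⁻¹) v₁).symm.trans
      (by rw [mul_inv_cancel, map_one]; rfl)⟩
  obtain ⟨htr, hde⟩ := hfrob l hl hGl A' hA' σ hσ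
  have h := hquad σ u
  rw [htr, hde, Nat.cast_smul_eq_nsmul (ZMod p) (a l) (ψ σ u),
    Nat.cast_smul_eq_nsmul (ZMod p) l u] at h
  have h' := congrArg D' h
  rw [D'.map_add, D'.map_sub, D'.map_nsmul, D'.map_nsmul, D'.map_zero] at h'
  have hlM : ¬ l ∣ M * p := fun h => hGN l hl hGl (by
    rw [mul_comm M p] at h; exact h.trans (dvd_mul_right _ _))
  have he := (hESM l hl hlM A' hA' 1 ⟨D' u, Pic0.mem_torsion.mpr
    (by rw [pow_one, natCast_zsmul]; exact hpD u)⟩).2 σ hσ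
  have e1 : σ • D' u = D' v₁ := by rw [← hσu]; exact (hDσ σ u).symm
  have e2 : D' (ψ σ (ψ σ u)) = σ • σ • D' u := by
    show D (j (ψ σ (ψ σ u))) = σ • σ • D (j u)
    rw [hDσ, hDσ]
  rw [e2, hσu] at h'
  dsimp only at he
  rw [e1] at he
  rw [e1] at h'
  show heckeOperatorBar M ⟨l, hl⟩ (D' v₁) = a l • D' v₁
  have hsub : σ • D' v₁ - a l • D' v₁ = σ • D' v₁ - heckeOperatorBar M ⟨l, hl⟩ (D' v₁) :=
    add_right_cancel (h'.trans he.symm)
  exact (sub_right_inj.mp hsub).symm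

end Fermat.Agent.RT.Lift59.AtP

end
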