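import Fermat.Agent.RT.AtP.Level
import Fermat.Agent.RT.MazurP.LocalE
import Fermat.Agent.CFT.Flat.Slots
import Fermat.Agent.CFT.TWPrimes.Mat

/-!
# The local hypothesis at `p` from flatness

A representation with a Galois order and trace `χ + 1` on inertia is trivial on the part of inertia
fixing the roots of unity, or cuts out a wild field with lower jump one: its radical is a unit
congruent to one to the full depth `p ^ 2 - 1`, which also fixes the twist by the tame generator.
-/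

set_option autoImplicit false
set_option linter.style.haveILetI false

noncomputable section

namespace Fermat.Agent.RT.Lift59.AtP

open Fermat.Agent.Arith Fermat.Agent.CFT.Flat
open Fermat.Agent.RT.MazurP (tameKer mem_tameKer conj_mem_tameKer
  TowerData Wild)
open Fermat.Agent.RT.AtP (LocalHyp)
open Fermat.Agent.CFT.Flat (tame mem_tame theta theta_one theta_mul theta_eq_one_iff thetaBar slot
  HasDeep e₀)

variable {p : ℕ} [hp : Fact p.Prime]

/-- The tame character on powers. -/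
theorem theta_npow {τ : GQ} (hτ : τ ∈ inG p) : ∀ n : ℕ, theta p (τ ^ n) = theta p τ ^ n
  | 0 => by rw [pow_zero, pow_zero, theta_one]
  | n + 1 => by rw [pow_succ', pow_succ', theta_mul p hτ, theta_npow hτ n]

theorem pow_mem_tame {τ : GQ} (hτ : τ ∈ inG p) {n : ℕ} (hn : e₀ p ∣ n) : τ ^ n ∈ tame p := by
  refine (theta_eq_one_iff p ((inG p).pow_mem hτ n)).mp ?_
  obtain ⟨k, rfl⟩ := hn
  rw [theta_npow hτ, pow_mul, theta_pow p τ, one_pow]

theorem tame_le_tameKer : tame p ≤ tameKer (padicPlace p) p := by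
  intro g hg
  refine mem_tameKer.mpr ⟨((mem_tame p).mp hg).1, Units.ext ?_⟩
  have h := cyclotomicHom_spec (n := p) g (zp_spec p).pow_eq_one
  rw [tame_fixes_zeta p (zp_spec p) hg] at h
  have he := (zp_spec p).pow_inj hp.out.one_lt (ZMod.val_lt _) ((pow_one _).trans h)
  rw [← ZMod.natCast_zmod_val (cyclotomicHom p g : ZMod p), ← he, Nat.cast_one, Units.val_one]

theorem slot_congr {c c' : GQ → ZMod p} {n : ℕ} (hn : 1 ≤ n) (hnN : n < p * (p + 1))
    (hpn : ¬ p ∣ n) (h : HasDeep p c n) (he : ∀ g ∈ tame p, c g = c' g) :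
    slot p c n = slot p c' n := by
  obtain ⟨α, hα, hα'⟩ := h
  rw [slot_eq hn hnN hpn hα hα', slot_eq hn hnN hpn (hα.congr he) hα']

theorem slot_nsmul {c : GQ → ZMod p} {n : ℕ} (hn : 1 ≤ n) (hnN : n < p * (p + 1))
    (hpn : ¬ p ∣ n) (h : HasDeep p c n) :
    ∀ k : ℕ, HasDeep p (k • c) n ∧ slot p (k • c) n = k * slot p c n
  | 0 => by
    rw [zero_smul]
    refine ⟨hasDeep_zero n, ?_⟩
    have h0 := slot_add hn hnN hpn (hasDeep_zero (p := p) n) (hasDeep_zero n)
    rw [add_zero] at h0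
    rw [Nat.cast_zero, zero_mul]
    exact add_left_cancel (h0.symm.trans (add_zero _).symm)
  | k + 1 => by
    obtain ⟨h1, h2⟩ := slot_nsmul hn hnN hpn h k
    rw [succ_nsmul]
    exact ⟨h1.add hn h, by
      rw [slot_add hn hnN hpn h1 h, h2, Nat.cast_succ, add_mul, one_mul]⟩

/-- Elements with the same absolute value have the same valuation. -/
theorem valuation_eq_of_nrm {x y : QBar} (hx : x ≠ 0) (hy : y ≠ 0) (h : nrm p x = nrm p y) :
    (padicPlace p).valuation x = (padicPlace p).valuation y := by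
  have key : ∀ a b : QBar, b ≠ 0 → nrm p a = nrm p b →
      (padicPlace p).valuation a ≤ (padicPlace p).valuation b := by
    intro a b hb hab
    have hmem : a / b ∈ padicPlace p := (mem_place_iff p).mpr (by
      rw [nrm_div, hab, div_self (nrm_pos p hb).ne'])
    have h1 := ((padicPlace p).valuation_le_one_iff _).mpr hmem
    rwa [map_div₀, div_le_one₀ (zero_lt_iff.mpr ((Valuation.ne_zero_iff _).mpr hb))] at h1
  exact le_antisymm (key x y hy h) (key y x hx h.symm)

/-- A nilpotent in the line of a nonzero nilpotent with which it has trace product zero. -/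
theorem exists_smul_of_nilpotent {k : Type*} [Field k] (N M : Matrix (Fin 2) (Fin 2) k) (hN : N ≠ 0)
    (hNt : N.trace = 0) (hNd : N.det = 0) (hMt : M.trace = 0) (hMd : M.det = 0)
    (h : (N * M).trace = 0) : ∃ c : k, M = c • N := by
  rw [Matrix.trace_fin_two] at hNt hMt
  rw [Matrix.det_fin_two] at hNd hMd
  rw [Matrix.trace_fin_two, Matrix.mul_apply, Matrix.mul_apply, Fin.sum_univ_two,
    Fin.sum_univ_two] at h
  have hN11 : N 1 1 = -N 0 0 := by linear_combination hNt
  have hM11 : M 1 1 = -M 0 0 := by linear_combination hMt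
  rw [hN11] at hNd h
  rw [hM11] at hMd h
  by_cases hb : N 0 1 = 0
  · have ha : N 0 0 = 0 := by
      rw [hb, zero_mul, sub_zero, mul_neg, neg_eq_zero] at hNd
      exact mul_self_eq_zero.mp hNd
    have hc : N 1 0 ≠ 0 := fun hc => hN (by
      ext i j; fin_cases i <;> fin_cases j <;> simp [ha, hb, hc, hN11])
    have hy : M 0 1 = 0 := by
      rw [ha, hb] at h
      refine (mul_eq_zero.mp (show N 1 0 * M 0 1 = 0 by linear_combination h)).resolve_left hc
    have hx : M 0 0 = 0 := by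
      rw [hy, zero_mul, sub_zero, mul_neg, neg_eq_zero] at hMd
      exact mul_self_eq_zero.mp hMd
    refine ⟨M 1 0 / N 1 0, ?_⟩
    ext i j; fin_cases i <;> fin_cases j <;> simp [ha, hb, hx, hy, hN11, hM11, hc]
  · have hsq : (N 0 1 * M 0 0 - N 0 0 * M 0 1) ^ 2 = 0 := by
      linear_combination (-N 0 1 * M 0 1) * h + (-(M 0 1) ^ 2) * hNd + (-(N 0 1) ^ 2) * hMd
    have hx : N 0 1 * M 0 0 = N 0 0 * M 0 1 := sub_eq_zero.mp (pow_eq_zero_iff two_ne_zero |>.mp hsq)
    have hz : N 0 1 * M 1 0 = N 1 0 * M 0 1 := by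
      refine mul_left_cancel₀ hb ?_
      linear_combination (N 0 1) * h + (-2 * N 0 0) * hx + (2 * M 0 1) * hNd
    refine ⟨M 0 1 / N 0 1, ?_⟩
    ext i j; fin_cases i <;> fin_cases j <;> simp [hN11, hM11] <;> field_simp <;>
      first | linear_combination hx | linear_combination hz

variable {M' : Type} [AddCommGroup M'] [DistribMulAction GQ M'] [Finite M']

/-- The local hypothesis from a Galois order. -/
theorem localHyp_of_flat (_hp2 : p ≠ 2) (O : FiniteFlat.GalOrder p M') (hkill : ∀ m : M', p • m = 0)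
    (r : GQ →* Matrix (Fin 2) (Fin 2) (ZMod p))
    (hr : ∀ g : GQ, (∀ m : M', g • m = m) → r g = 1)
    (hdet : ∀ σ : GQ, (r σ).det = (cyclotomicHom p σ : ZMod p))
    (hin : ∀ τ ∈ inG p, (r τ).trace = (r τ).det + 1) : LocalHyp (padicPlace p) r := by
  classical
  by_cases htriv : ∀ g ∈ tameKer (padicPlace p) p, r g = 1
  · exact Or.inl htriv
  right
  push Not at htriv
  obtain ⟨τ₁, hτ₁, hτ₁ne⟩ := htriv
  set K := tameKer (padicPlace p) p with hK
  have hKd : ∀ g ∈ K, (r g).det = 1 := fun g hg => by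
    rw [hdet, (mem_tameKer.mp hg).2, Units.val_one]
  have hKt : ∀ g ∈ K, (r g).trace = 2 := fun g hg => by
    rw [hin g (mem_tameKer.mp hg).1, hKd g hg, one_add_one_eq_two]
  have hnil : ∀ g ∈ K, (r g - 1).trace = 0 ∧ (r g - 1).det = 0 := fun g hg => by
    have ht := hKt g hg
    have hd := hKd g hg
    rw [Matrix.trace_fin_two] at ht
    rw [Matrix.det_fin_two] at hd
    constructor
    · simp [Matrix.trace_fin_two]; linear_combination ht
    · simp [Matrix.det_fin_two]; linear_combination hd - ht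
  set N := r τ₁ - 1 with hN
  have hN0 : N ≠ 0 := sub_ne_zero.mpr hτ₁ne
  obtain ⟨i₀, j₀, hij⟩ : ∃ i j, N i j ≠ 0 := by
    by_contra hall
    push Not at hall
    exact hN0 (Matrix.ext hall)
  set c : GQ → ZMod p := fun g => (r g - 1) i₀ j₀ / N i₀ j₀ with hc
  have hline : ∀ g ∈ K, r g = 1 + c g • N := fun g hg => by
    obtain ⟨e, he⟩ := exists_smul_of_nilpotent N (r g - 1) hN0 (hnil _ hτ₁).1 (hnil _ hτ₁).2
      (hnil g hg).1 (hnil g hg).2 (by
        have h := hKt _ (K.mul_mem hτ₁ hg)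
        rw [map_mul, show r τ₁ * r g = 1 + N + (r g - 1) + N * (r g - 1) by rw [hN]; noncomm_ring,
          Matrix.trace_add, Matrix.trace_add, Matrix.trace_add, (hnil _ hτ₁).1, (hnil g hg).1,
          Matrix.trace_one, Fintype.card_fin, Nat.cast_ofNat] at h
        linear_combination h)
    have : c g = e := by
      rw [hc]
      show (r g - 1) i₀ j₀ / N i₀ j₀ = e
      rw [he, Matrix.smul_apply, smul_eq_mul, mul_div_cancel_right₀ _ hij]
    rw [this, ← he, add_sub_cancel]
  have hcof : ∀ {g : GQ} {x : ZMod p}, r g = 1 + x • N → c g = x := fun {g x} h => by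
    show (r g - 1) i₀ j₀ / N i₀ j₀ = x
    rw [h, add_sub_cancel_left, Matrix.smul_apply, smul_eq_mul, mul_div_cancel_right₀ _ hij]
  have hNN : N * N = 0 := CFT.TWPrimes.sq_zero_of_trace_det (hnil _ hτ₁).1 (hnil _ hτ₁).2
  have hcadd : ∀ g ∈ K, ∀ h ∈ K, c (g * h) = c g + c h := fun g hg h hh => hcof (by
    rw [map_mul, hline g hg, hline h hh, mul_add, add_mul, add_mul, smul_mul_assoc, smul_mul_assoc,
      mul_smul_comm, mul_smul_comm, hNN, smul_zero, smul_zero, add_zero, one_mul, mul_one, one_mul,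
      add_smul]
    abel)
  have hc0 : ∀ g, r g = 1 → c g = 0 := fun g hg => by
    show (r g - 1) i₀ j₀ / N i₀ j₀ = 0
    rw [hg, sub_self, Matrix.zero_apply, zero_div]
  have hc1 : c τ₁ = 1 := hcof (by rw [one_smul, hN, add_sub_cancel])
  have hcpow : ∀ g ∈ K, ∀ n : ℕ, c (g ^ n) = n * c g := by
    intro g hg n
    induction n with
    | zero => rw [pow_zero, hc0 1 (map_one r), Nat.cast_zero, zero_mul]
    | succ n ih => rw [pow_succ, hcadd _ (K.pow_mem hg n) _ hg, ih, Nat.cast_succ, add_mul, one_mul]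
  -- a generator in tame inertia
  set σ := τ₁ ^ (e₀ p * (p - 1)) with hσdef
  have hσt : σ ∈ tame p := pow_mem_tame (mem_tameKer.mp hτ₁).1 (dvd_mul_right _ _)
  have hσK : σ ∈ K := K.pow_mem hτ₁ _
  have hp2' := hp.out.two_le
  have hcσ : c σ = 1 := by
    rw [hσdef, hcpow _ hτ₁, hc1, mul_one, e₀_eq, Nat.cast_mul, Nat.cast_mul, Nat.cast_succ,
      Nat.cast_sub hp.out.one_le, Nat.cast_one, ZMod.natCast_self]
    ring
  have hrσ : r σ = 1 + N := by rw [hline σ hσK, hcσ, one_smul]
  -- the tame generator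
  obtain ⟨τ, hτ, hτprim, hgen⟩ := CFT.Flat.exists_tame_generator p
  set a : ℕ := (cyclotomicHom p τ : ZMod p).val with hadef
  have hτz : τ (zp p) = zp p ^ a := cyclotomicHom_spec τ (zp_spec p).pow_eq_one
  have hacast : (cyclotomicHom p τ : ZMod p) = (a : ZMod p) := (ZMod.natCast_zmod_val _).symm
  have haθ : thetaBar p τ ^ (p + 1) = (a : CFT.Flat.Res p) := by
    have h1 := cyclo_congr p (zp_spec p) hτ hτz
    have hθ1 := (nrm_root p (CFT.Flat.e₀_pos p) (theta_pow p τ)).le
    have h2 : nrm p (theta p τ ^ (p + 1)) ≤ 1 := by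
      rw [CFT.Flat.nrm_pow]; exact pow_le_one₀ (nrm_nonneg p _) hθ1
    rw [thetaBar, ← res_pow p hθ1, ← res_natCast p]
    exact ((res_eq_iff p (nrm_natCast_le_one p _) h2).mpr h1).symm
  have hprim : ∀ j : ℕ, (a : ZMod p) ^ j = 1 → p - 1 ∣ j := by
    intro j hj
    have h1 : (thetaBar p τ ^ (p + 1)) ^ j = 1 := by
      rw [haθ, ← map_natCast (ZMod.castHom (dvd_refl p) (CFT.Flat.Res p)), ← map_pow, hj, map_one]
    rw [← pow_mul] at h1
    have h2 := (isPrimitiveRoot_thetaBar p hτprim).dvd_of_pow_eq_one _ h1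
    rw [e₀_eq] at h2
    exact Nat.dvd_of_mul_dvd_mul_left (by omega) h2
  have hτpow : τ ^ (p - 1) ∈ K := mem_tameKer.mpr ⟨(inG p).pow_mem hτ _, by
    rw [map_pow, ZMod.units_pow_card_sub_one_eq_one]⟩
  have hgenK : ∀ g ∈ inG p, ∃ i : ℕ, (τ ^ i)⁻¹ * g ∈ K := fun g hg =>
    (hgen g hg).imp fun i hi => tame_le_tameKer hi
  -- the flat radical
  set H := fixM p M' ⊓ tame p with hH
  have hHlev : IsLevel p H := (isLevel_fixM O).inf (isLevel_fixer (rad p))
  have hom : IsTameHom p H c := ⟨hHlev, inf_le_right,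
    fun g hg h hh => hcadd g (tame_le_tameKer hg) h (tame_le_tameKer hh),
    fun g hg => hc0 g (hr g ((mem_fixM p M').mp hg.1).2)⟩
  obtain ⟨α, hα, hαdeep⟩ := hom.exists_unit_radical (isBdd_of_galOrder p O hkill)
  -- the twist of the tame generator
  have hconjK : ∀ g ∈ K, ∀ x ∈ inG p, x⁻¹ * g * x ∈ K := fun g hg x hx =>
    conj_mem_tameKer hx hg
  set ν := c (τ⁻¹ * σ * τ) with hν
  have hRR : r τ⁻¹ * r τ = 1 := by rw [← map_mul, inv_mul_cancel, map_one]
  have hNτ : r τ⁻¹ * N * r τ = ν • N := by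
    have h := hline _ (hconjK σ hσK τ hτ)
    rw [← hν, map_mul, map_mul, hrσ, mul_add, add_mul, mul_one, hRR] at h
    exact add_left_cancel h
  have hcτ : ∀ g ∈ K, c (τ⁻¹ * g * τ) = c g * ν := fun g hg => hcof (by
    rw [map_mul, map_mul, hline g hg, mul_add, add_mul, mul_one, hRR, mul_smul_comm,
      smul_mul_assoc, hNτ, smul_smul])
  have hτν : (a : ZMod p) * ν = 1 := by
    by_contra hne
    set k := ((a : ZMod p) * ν).val with hk
    have hkc : ((k : ℕ) : ZMod p) = (a : ZMod p) * ν := ZMod.natCast_zmod_val _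
    have hdeep : ∀ n, e₀ p ≤ n → n ≤ p * (p + 1) → HasDeep p c n := by
      intro n hn
      induction n, hn using Nat.le_induction with
      | base => exact fun _ => ⟨α, hα, hαdeep⟩
      | succ n hn ih =>
        intro hnN
        have hd := ih (by omega)
        have he : 1 ≤ n := le_trans (CFT.Flat.e₀_pos p) hn
        refine hd.succ he (by omega) (or_iff_not_imp_left.mpr fun hpn => ?_)
        by_contra hs
        have ha' : τ (zp p) = zp p ^ ((cyclotomicHom p τ : ZMod p)).val := hτz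
        obtain ⟨x, hx, h1, h2⟩ := slot_map (inG_le_decG p hτ) ha' (c := c)
          (c' := fun g => (cyclotomicHom p τ : ZMod p) * c (τ⁻¹ * g * τ)) (fun g _ => rfl)
          he (by omega) hpn hd
        rw [res_map_inG hτ hx, ← h1] at h2
        obtain ⟨hkd, hks⟩ := slot_nsmul he (by omega) hpn hd k
        have hcongr : ∀ g ∈ tame p, (k • c) g =
            (cyclotomicHom p τ : ZMod p) * c (τ⁻¹ * g * τ) := fun g hg => by
          rw [Pi.smul_apply, nsmul_eq_mul, hkc, hcτ g (tame_le_tameKer hg), hacast]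
          ring
        rw [← slot_congr he (by omega) hpn hkd hcongr, hks] at h2
        have hθn : (k : CFT.Flat.Res p) = thetaBar p τ ^ n := mul_right_cancel₀ hs h2
        have hprimθ := isPrimitiveRoot_thetaBar p hτprim
        have hk0 : (k : ZMod p) ≠ 0 := fun h0 => pow_ne_zero n
          (hprimθ.ne_zero (CFT.Flat.e₀_pos p).ne') (by
          rw [← hθn, ← map_natCast (ZMod.castHom (dvd_refl p) (CFT.Flat.Res p)), h0, map_zero])
        have hk1 : thetaBar p τ ^ (n * (p - 1)) = 1 := by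
          rw [pow_mul, ← hθn, ← map_natCast (ZMod.castHom (dvd_refl p) (CFT.Flat.Res p)), ← map_pow,
            ZMod.pow_card_sub_one_eq_one hk0, map_one]
        have h3 := hprimθ.dvd_of_pow_eq_one _ hk1
        rw [e₀_eq] at h3
        obtain ⟨q, hq⟩ := Nat.dvd_of_mul_dvd_mul_right (by omega : 0 < p - 1) h3
        have hn1 : p - 1 ≤ q := by
          rw [e₀_eq, hq] at hn; exact Nat.le_of_mul_le_mul_left hn (by omega)
        have hn2 : q < p := by
          have : (p + 1) * q < (p + 1) * p := by rw [← hq, mul_comm (p + 1) p]; omega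
          exact Nat.lt_of_mul_lt_mul_left this
        have hne₀ : n = e₀ p := by rw [hq, e₀_eq, show q = p - 1 by omega]
        rw [hne₀, hprimθ.pow_eq_one, ← map_natCast (ZMod.castHom (dvd_refl p) (CFT.Flat.Res p)),
          hkc, ← map_one (ZMod.castHom (dvd_refl p) (CFT.Flat.Res p))] at hθn
        exact hne ((ZMod.castHom (dvd_refl p) (CFT.Flat.Res p)).injective hθn)
    obtain ⟨β, hβ, hβd⟩ := hdeep _ (by
      rw [e₀_eq, mul_comm p]; exact Nat.mul_le_mul_left _ (Nat.sub_le p 1)) le_rfl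
    exact one_ne_zero (hcσ ▸ hβ.eq_zero_of_deep hβd hσt)
  have hconj : r (τ * σ * τ⁻¹) = 1 + (a : ZMod p) • N := by
    have hRR' : r τ * r τ⁻¹ = 1 := by rw [← map_mul, mul_inv_cancel, map_one]
    have h2 : r τ * (r τ⁻¹ * N * r τ) * r τ⁻¹ = N := by
      rw [← mul_assoc, ← mul_assoc, hRR', one_mul, mul_assoc, hRR', mul_one]
    rw [hNτ, mul_smul_comm, smul_mul_assoc] at h2
    rw [map_mul, map_mul, hrσ, mul_add, add_mul, mul_one, hRR']
    congr 1
    calc r τ * N * r τ⁻¹ = ((a : ZMod p) * ν) • (r τ * N * r τ⁻¹) := by rw [hτν, one_smul]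
      _ = (a : ZMod p) • N := by rw [mul_smul, h2]
  have hσn : ∀ n : ℕ, r (σ ^ n) = 1 + (n : ZMod p) • N := fun n => by
    rw [hline _ (K.pow_mem hσK n), hcpow _ hσK, hcσ, mul_one]
  let Hk : Subgroup GQ :=
    { carrier := {g | g ∈ K ∧ r g = 1}
      one_mem' := ⟨K.one_mem, map_one r⟩
      mul_mem' := fun {x y} hx hy => ⟨K.mul_mem hx.1 hy.1, by rw [map_mul, hx.2, hy.2, one_mul]⟩
      inv_mem' := fun {x} hx => ⟨K.inv_mem hx.1, by
        have h : r x⁻¹ * r x = 1 := by rw [← map_mul, inv_mul_cancel, map_one]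
        rwa [hx.2, mul_one] at h⟩ }
  have hconjHk : ∀ h ∈ Hk, ∀ x ∈ inG p, x⁻¹ * h * x ∈ Hk := fun h hh x hx =>
    ⟨hconjK h hh.1 x hx, by rw [map_mul, map_mul, hh.2, mul_one, ← map_mul, inv_mul_cancel, map_one]⟩
  have hinv : ∀ n : ℕ, r (σ ^ n)⁻¹ = 1 - (n : ZMod p) • N := fun n => by
    have hu : r (σ ^ n)⁻¹ * r (σ ^ n) = 1 := by rw [← map_mul, inv_mul_cancel, map_one]
    calc r (σ ^ n)⁻¹ = r (σ ^ n)⁻¹ * ((1 + (n : ZMod p) • N) * (1 - (n : ZMod p) • N)) := by
          rw [add_mul, one_mul, mul_sub, mul_one, smul_mul_smul_comm, hNN, smul_zero, sub_zero,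
            sub_add_cancel, mul_one]
      _ = 1 - (n : ZMod p) • N := by rw [← mul_assoc, ← hσn, hu, one_mul]
  let D : TowerData (padicPlace p) p :=
    { Hk := Hk
      H₁ := K
      σ := σ
      τ₀ := τ
      g := a
      ζ := zp p
      le := fun x hx => hx.1
      le_inertia := fun h hh => (mem_tameKer.mp hh).1
      σ_mem := hσK
      τ₀_mem := hτ
      normal := fun h hh => hconjHk h hh σ (mem_tameKer.mp hσK).1
      normal_τ₀ := fun h hh => hconjHk h hh τ hτ
      normal₁ := fun h hh => hconjK h hh τ hτ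
      gen₁ := fun h hh => ⟨(c h).val, K.mul_mem (K.inv_mem (K.pow_mem hσK _)) hh, by
        rw [map_mul, hinv, hline h hh, ZMod.natCast_zmod_val, sub_mul, one_mul, mul_add, mul_one,
          smul_mul_smul_comm, hNN, smul_zero, add_zero, add_sub_cancel_right]⟩
      pow_σ := ⟨K.pow_mem hσK _, by rw [hσn, ZMod.natCast_self, zero_smul, add_zero]⟩
      gen := hgenK
      pow_τ₀ := hτpow
      primitive := hprim
      g_ne := hacast ▸ Units.ne_zero _
      conj := by
        have hmem : τ * σ * τ⁻¹ ∈ K := by simpa using hconjK σ hσK τ⁻¹ ((inG p).inv_mem hτ)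
        refine ⟨K.mul_mem (K.inv_mem (K.pow_mem hσK _)) hmem, ?_⟩
        rw [map_mul, hinv, hconj, sub_mul, one_mul, mul_add, mul_one,
          smul_mul_smul_comm, hNN, smul_zero, add_zero, add_sub_cancel_right]
      hζ := zp_spec p
      ζ_fixed := fun h hh => by
        rw [cyclotomicHom_spec (n := p) h (zp_spec p).pow_eq_one, (mem_tameKer.mp hh).2,
          Units.val_one, ZMod.val_one, pow_one]
      τ₀_ζ := hτz }
  -- the unit: the norm of the radical to the field of `Hk`
  set H₀ : Subgroup GQ := Hk ⊓ tame p with hH₀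
  set η := τ ^ ((p - 1) * p) with hη
  have hηI : η ∈ inG p := (inG p).pow_mem hτ _
  have hηK : η ∈ K := by rw [hη, pow_mul]; exact K.pow_mem hτpow p
  have hηr : r η = 1 := by
    rw [hη, pow_mul, hline _ (K.pow_mem hτpow p), hcpow _ hτpow, ZMod.natCast_self, zero_mul,
      zero_smul, add_zero]
  have hηn : η ^ (p + 1) ∈ H₀ := ⟨⟨K.pow_mem hηK _, by rw [map_pow, hηr, one_pow]⟩, by
    rw [hη, ← pow_mul]; exact pow_mem_tame hτ ⟨p, by rw [e₀_eq]; ring⟩⟩
  have hα₀ : ∀ h ∈ H₀, h α = α := fun h hh => by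
    rw [hα.2 h hh.2, hc0 h hh.1.2, ZMod.val_zero, pow_zero, one_mul]
  obtain ⟨hzH₀, hzη⟩ := RT.MazurP.fixed_prod_pow (H := H₀) (g := η) (n := p + 1)
    (fun h hh => ⟨hconjHk h hh.1 η hηI, conj_mem_tame (inG_le_decG p hηI) hh.2⟩) hηn hα₀
  set z := ∏ i ∈ Finset.range (p + 1), (η ^ i) α with hzdef
  have hα1 : nrm p α = 1 := by
    have h1 := nrm_pow_eq_one (Nat.one_le_iff_ne_zero.mpr (CFT.Flat.e₀_pos p).ne') hαdeep
    rw [CFT.Flat.nrm_pow] at h1
    exact (pow_eq_one_iff_of_nonneg (nrm_nonneg p α) hp.out.ne_zero).mp h1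
  have hz1 : nrm p z = 1 := by
    rw [hzdef, nrm_prod, Finset.prod_eq_one fun i _ => by
      rw [nrm_map_of_mem_inG p ((inG p).pow_mem hηI i), hα1]]
  have hζK : ∀ g ∈ K, g (zp p) = zp p := D.ζ_fixed
  have hσz : σ z = zp p * z := by
    have hterm : ∀ i : ℕ, σ ((η ^ i) α) = zp p * (η ^ i) α := fun i => by
      have hx := (inG p).pow_mem hηI i
      have hmem : (η ^ i)⁻¹ * σ * η ^ i ∈ tame p := conj_mem_tame (inG_le_decG p hx) hσt
      have hri : r (η ^ i) = 1 := by rw [map_pow, hηr, one_pow]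
      have hri' : r (η ^ i)⁻¹ = 1 := by
        have h : r (η ^ i)⁻¹ * r (η ^ i) = 1 := by rw [← map_mul, inv_mul_cancel, map_one]
        rwa [hri, mul_one] at h
      have hci : c ((η ^ i)⁻¹ * σ * η ^ i) = 1 := hcof (by
        rw [map_mul, map_mul, hrσ, hri', hri, one_mul, mul_one, one_smul])
      calc σ ((η ^ i) α) = (η ^ i) (((η ^ i)⁻¹ * σ * η ^ i) α) := by
            rw [← AlgEquiv.mul_apply, ← AlgEquiv.mul_apply, ← mul_assoc, ← mul_assoc,
              mul_inv_cancel, one_mul]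
        _ = zp p * (η ^ i) α := by
            rw [hα.2 _ hmem, hci, ZMod.val_one, pow_one, map_mul, hζK _ (K.pow_mem hηK i)]
    rw [hzdef, map_prod, Finset.prod_congr rfl fun i _ => hterm i, Finset.prod_mul_distrib,
      Finset.prod_const, Finset.card_range, pow_succ, (zp_spec p).pow_eq_one, one_mul]
  have hzHk : ∀ h ∈ Hk, h z = z := by
    intro h hh
    obtain ⟨i, hi⟩ := hgen h (mem_tameKer.mp hh.1).1
    have hi' : p - 1 ∣ i := hprim i (by
      have h1 := (mem_tameKer.mp (tame_le_tameKer hi)).2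
      rw [map_mul, map_inv, map_pow, (mem_tameKer.mp hh.1).2, mul_one, inv_eq_one] at h1
      rw [← hacast, ← Units.val_pow_eq_pow_val, h1, Units.val_one])
    obtain ⟨k, rfl⟩ := hi'
    have hmem : (η ^ (p * k))⁻¹ * h ∈ H₀ := by
      refine ⟨Hk.mul_mem (Hk.inv_mem (Hk.pow_mem (⟨hηK, hηr⟩ : η ∈ Hk) _)) hh, ?_⟩
      have e : η ^ (p * k) = τ ^ ((p - 1) * k) * τ ^ (e₀ p * ((p - 1) * k)) := by
        rw [hη, ← pow_mul, ← pow_add, e₀_eq]
        congr 1
        obtain ⟨q, hq⟩ : ∃ q, p = q + 1 := ⟨p - 1, by omega⟩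
        rw [hq, Nat.add_sub_cancel]
        ring
      rw [e, mul_inv_rev, mul_assoc]
      exact (tame p).mul_mem ((tame p).inv_mem (pow_mem_tame hτ (dvd_mul_right _ _))) hi
    have hpow : ∀ n : ℕ, (η ^ n) z = z := fun n => by
      induction n with
      | zero => simp
      | succ n ih => rw [pow_succ, AlgEquiv.mul_apply, hzη, ih]
    calc h z = (η ^ (p * k)) (((η ^ (p * k))⁻¹ * h) z) := by
          rw [← AlgEquiv.mul_apply, mul_inv_cancel_left]
      _ = z := by rw [hzH₀ _ hmem, hpow]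
  have hz0 : z ≠ 0 := fun h => by rw [h, nrm_zero] at hz1; exact zero_ne_one hz1
  have hζ1 : zp p - 1 ≠ 0 := sub_ne_zero.mpr ((zp_spec p).ne_one hp.out.one_lt)
  have hzσ : (padicPlace p).valuation (D.σ z - z) = (padicPlace p).valuation (D.ζ - 1) := by
    show (padicPlace p).valuation (σ z - z) = (padicPlace p).valuation (zp p - 1)
    rw [hσz, show zp p * z - z = (zp p - 1) * z by ring]
    refine valuation_eq_of_nrm (mul_ne_zero hζ1 hz0) hζ1 ?_
    rw [nrm_mul, hz1, mul_one]
  obtain ⟨Wd, hC, hC₁, hσW⟩ := TowerData.exists_wild (CFT.Local.padicPlace_liesOverPrime p) hp.out D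
    ((mem_place_iff p).mpr hz1.le) hzHk hzσ
  refine ⟨Wd, hC₁, fun g hg => ((SetLike.ext_iff.mp hC g).mp hg : g ∈ Hk).2, fun h => hN0 ?_, fun g hg => ?_⟩
  · rw [hσW, hrσ] at h
    simpa using h
  · rw [hσW, hC]
    exact D.gen₁ g hg

end Fermat.Agent.RT.Lift59.AtP

end
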