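import Fermat.Agent.RT.Lift59.AtP.Mat
import Fermat.Agent.RT.Lift59.Mazur.Forms
import Fermat.Agent.RT.Assembly.RamifiedTwo
import Fermat.Agent.RT.AtP.Level
import Fermat.Agent.RT.Lift59.AtP.Inertia
import Fermat.Agent.RT.Lift59.AtP.LocalFlat
import Fermat.Agent.EC.Rep.Local.Flat
import Fermat.Agent.FiniteFlat.TorsionInjective
import Fermat.Agent.GaloisReps.OfInjective
import Fermat.Agent.Newforms.LevelRaiseEigen
import Fermat.Agent.RT.Lift59.Mazur.Main

/-!
# Level lowering at `p` for a semistable model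

An auxiliary prime `l ≡ 11 (mod 12)`, `l ≡ -1 (mod p)` removes the elliptic points, so that `p`
leaves the level; the principle of Mazur at `l` then removes the auxiliary prime.
-/

set_option autoImplicit false

noncomputable section

open WeierstrassCurve WeierstrassCurve.Affine
open CongruenceSubgroup ModularFormClass
open scoped WeierstrassCurve.Affine

namespace Fermat.Agent.RT.Lift59.AtP

open Fermat.Agent.Arith Fermat.Agent.EC.Rep Fermat.Agent.RT.AtP Fermat.Agent.CFT.Flat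

variable {W : WeierstrassCurve ℤ} {p : ℕ} [Fact p.Prime]

/-- The local hypothesis at a small `p`. -/
theorem localHyp_matP (hp2 : p ≠ 2) (hΔ : W.Δ ≠ 0) (hsemi : (p : ℤ) ∣ W.Δ → ¬ (p : ℤ) ∣ W.c₄)
    (hsmall : SmallAt W p p)
    (hin : ∀ τ ∈ (padicPlace p).inertiaSubgroupIn ℚ,
      (matP W p hΔ τ).trace = (matP W p hΔ τ).det + 1) :
    LocalHyp (padicPlace p) (matP W p hΔ) := by
  have hp : p.Prime := Fact.out
  by_cases hdvd : (p : ℤ) ∣ W.Δ
  · exact localHyp_of_mult hΔ (CFT.Local.padicPlace_liesOverPrime p) hp2 hdvd (hsemi hdvd) hsmall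
  obtain ⟨O⟩ := exists_galOrder_torsion_pow (W := W) hp (show W.IsGoodPrimeFor p from hdvd) 1
  have := finite_torsPt hΔ (pow_ne_zero 1 hp.ne_zero)
  refine localHyp_of_flat hp2 O (fun m => Subtype.ext ?_) (matP W p hΔ) (fun g hg => ?_)
    (matP_det hΔ) hin
  · have h := (Submodule.mem_torsionBy_iff _ _).mp m.2
    rw [natCast_zsmul] at h
    show p • m.1 = 0
    exact (congrArg (fun n : ℕ => n • m.1) (pow_one p).symm).trans h
  · refine matP_eq_one hΔ fun x hx => ?_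
    exact congrArg Subtype.val (hg ⟨x, (Submodule.mem_torsionBy_iff _ _).mpr (by rwa [pow_one])⟩)

/-- `p` leaves a level without elliptic points, whatever the reduction at the other primes. -/
theorem residuallyModular_of_dvd_p_mul (hp2 : p ≠ 2) (hΔ : W.Δ ≠ 0)
    (hsemi : (p : ℤ) ∣ W.Δ → ¬ (p : ℤ) ∣ W.c₄) (hirr : W.ModRepIsIrreducible p)
    (hsmall : SmallAt W p p) {M L : ℕ}
    (hM : M ≠ 0) (hpM : ¬ p ∣ M) (hnu : MazurP.NoEll M) (hL : L ∣ p * M)
    (hmod : W.IsResiduallyModularOfLevel p L) : W.IsResiduallyModularOfLevel p M := by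
  classical
  have hp : p.Prime := Fact.out
  have : NeZero M := ⟨hM⟩
  have : NeZero (p * M) := ⟨mul_ne_zero hp.ne_zero hM⟩
  set S : Finset ℕ := insert p ((p * M).primeFactors ∪ W.Δ.natAbs.primeFactors) with hS
  have hSout : ∀ l : ℕ, l.Prime → l ∉ S → l ≠ p ∧ ¬ l ∣ p * M ∧ W.IsGoodPrimeFor l := by
    intro l hl h
    simp only [hS, Finset.mem_insert, Finset.mem_union, not_or] at h
    exact ⟨h.1, fun hd => h.2.1 (Nat.mem_primeFactors.mpr ⟨hl, hd, NeZero.ne _⟩),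
      fun hd => h.2.2 (Nat.mem_primeFactors.mpr
        ⟨hl, Int.natCast_dvd.mp hd, Int.natAbs_ne_zero.mpr hΔ⟩)⟩
  set G : ℕ → Prop := fun l => l ∉ S with hG
  set a : ℕ → ℕ := fun l => (W.apOfModel l : ZMod p).val with ha
  have hacast : ∀ l, (a l : ZMod p) = (W.apOfModel l : ZMod p) := fun l => by
    rw [ha]; exact ZMod.natCast_zmod_val _
  obtain ⟨f, 𝔪, hf, h𝔪, hp𝔪, hcong⟩ := hmod
  obtain ⟨f', hf', hff'⟩ := Newforms.exists_eigenform_of_dvd (N := p * M) hL hf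
  have := h𝔪.isPrime
  obtain ⟨x₀, hx₀, hpx₀, hx₀e⟩ := exists_eigenclass hf' 𝔪 hp𝔪 G a fun l hl hlS => by
    obtain ⟨hlp, hlN, hlgood⟩ := hSout l hl hlS
    obtain ⟨c, hc, hcm⟩ := hcong l hl hlgood (fun h => hlN (h.trans hL)) hlp
    exact ⟨c, hc.trans (hff' l hl (Or.inr hlN)).symm,
      sub_intCast_mem hp𝔪 (by exact_mod_cast hacast l) hcm⟩
  have hES : ∀ (N q : ℕ) [NeZero N] [Fact q.Prime], GaloisReps.CongruenceProperty N q :=
    GaloisReps.congruenceProperty_all fun N _ => FiniteFlat.injectiveOnTorsion_of_lattice N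
  set A := padicPlace p
  have hA : A.LiesOverPrime p := CFT.Local.padicPlace_liesOverPrime p
  have hGN : ∀ l, l.Prime → G l → ¬ l ∣ p * M := fun l hl hlS => (hSout l hl hlS).2.1
  have hfrob : ∀ l, l.Prime → G l → ∀ A' : ValuationSubring QBar, A'.LiesOverPrime l →
      ∀ σ : GQ, A'.IsFrobeniusAt σ l →
        (matP W p hΔ σ).trace = a l ∧ (matP W p hΔ σ).det = l :=
    fun l hl hlS A' hA' σ hσ => by
      obtain ⟨h1, h2⟩ :=
        matP_frobenius hΔ hl (hSout l hl hlS).2.2 (hSout l hl hlS).1 hA' hσ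
      exact ⟨by rw [h1, hacast], h2⟩
  refine residuallyModular_of_congr hΔ (S := S) (G := G) (fun _ h => h) hacast ?_
  by_cases hbad : ∃ τ ∈ A.inertiaSubgroupIn ℚ,
      (matP W p hΔ τ).trace ≠ (matP W p hΔ τ).det + 1
  · obtain ⟨τ, hτ, hne⟩ := hbad
    exact hasForm_of_moved hA hp2 hpM G a hGN S (fun l _ h => h) (hES _ _) (hES _ _) hx₀ hpx₀ hx₀e
      (matP W p hΔ) (matP_finiteLevel hΔ) (matP_span hΔ hp2 hirr) hfrob
      (matP_det hΔ) hτ hne
  push Not at hbad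
  obtain ⟨l, hl, hlS, -, -, hne⟩ := exists_apOfModel_ne hp2 hirr hΔ S
  exact hasForm_of_eigenclass hA hp2 hpM hnu G a hGN S (fun l _ h => h) (hES _ _) hx₀ hpx₀ hx₀e
    (matP W p hΔ) (matP_finiteLevel hΔ) (matP_span hΔ hp2 hirr) hfrob
    (matP_det hΔ) hbad (localHyp_matP hp2 hΔ hsemi hsmall hbad)
    ⟨l, hl, hlS, fun h => hne (by
      have h' := (ZMod.intCast_zmod_eq_zero_iff_dvd _ p).mpr h
      push_cast at h'
      rw [hacast] at h'
      linear_combination h')⟩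

/-- **The principle of Mazur at `p` for a semistable model.** -/
theorem atPInput : AtPInput := by
  intro W p M hset hseed hsq hpM hsmall
  have : Fact p.Prime := ⟨hset.hp.1⟩
  have hp : p.Prime := Fact.out
  have hp2 : p ≠ 2 := hset.hp.2
  obtain ⟨N₀, rfl⟩ := hpM
  rw [Nat.mul_div_cancel_left N₀ hp.pos]
  obtain ⟨hcop, -, hsq₀⟩ := Nat.squarefree_mul_iff.mp hsq
  have hpN₀ : ¬ p ∣ N₀ := hp.coprime_iff_not_dvd.mp hcop
  have hN₀ : N₀ ≠ 0 := hsq₀.ne_zero
  obtain ⟨l, hl, hlS, h4, h3, hlp, -⟩ := MazurQ.exists_aux_prime hp2 hset.hΔ hset.hW hset.hirr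
    (insert p (N₀.primeFactors ∪ W.Δ.natAbs.primeFactors))
  simp only [Finset.mem_insert, Finset.mem_union, not_or] at hlS
  have hlN₀ : ¬ l ∣ N₀ := fun h => hlS.2.1 (Nat.mem_primeFactors.mpr ⟨hl, h, hN₀⟩)
  have hlΔ : ¬ (l : ℤ) ∣ W.Δ := fun h => hlS.2.2 (Nat.mem_primeFactors.mpr
    ⟨hl, Int.natCast_dvd.mp h, Int.natAbs_ne_zero.mpr hset.hΔ⟩)
  have hpl : ¬ p ∣ l := fun h => hlS.1 ((Nat.prime_dvd_prime_iff_eq hp hl).mp h).symm
  have hpM₁ : ¬ p ∣ l * N₀ := fun h => (hp.dvd_mul.mp h).elim hpl hpN₀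
  have h1 := residuallyModular_of_dvd_p_mul hp2 hset.hΔ (hset.hW p hp) hset.hirr hsmall (mul_ne_zero hl.ne_zero hN₀) hpM₁
    (RT.MazurQ.nuTwo_nuThree_of_prime hl h4 h3 (dvd_mul_right l N₀))
    (mul_dvd_mul_left p (dvd_mul_left N₀ l)) hseed.res
  have hsq₁ : Squarefree (l * N₀) :=
    Nat.squarefree_mul_iff.mpr ⟨hl.coprime_iff_not_dvd.mpr hlN₀, hl.squarefree, hsq₀⟩
  have h2 := MazurQ.mazurInput W p (l * N₀) l hset
    ⟨Nat.pos_of_ne_zero hsq₁.ne_zero, h1, fun h => hpM₁ ((dvd_pow_self p two_ne_zero).trans h),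
      fun q hq _ h => hq.not_isUnit (hsq₁ q (by
        rw [← sq]; exact (Nat.pow_dvd_pow q (by norm_num)).trans h))⟩
    hl hlS.1 (dvd_mul_right l N₀)
    (fun h => hlN₀ (Nat.dvd_of_mul_dvd_mul_left hl.pos (by rw [← sq]; exact h)))
    (by rw [SmallAt, padicValInt.eq_zero_of_not_dvd hlΔ]; exact dvd_zero p)
    (fun h => two_ne_zero_zmod hp2 (by linear_combination hlp.symm.trans h.1 |>.symm))
  rwa [Nat.mul_div_cancel_left N₀ hl.pos] at h2

end Fermat.Agent.RT.Lift59.AtP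

end
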