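import Fermat.Agent.RT.AtP.Level
import Fermat.Agent.RT.Lift59.Matrices
import Fermat.Agent.RT.MazurP.LocalE

/-!
# The matrices on `E[p]` of an integral model at a multiplicative `p`
-/

set_option autoImplicit false

noncomputable section

open WeierstrassCurve WeierstrassCurve.Affine Polynomial
open scoped WeierstrassCurve.Affine

namespace Fermat.Agent.RT.Lift59.AtP

open Fermat.Agent.Arith Fermat.Agent.EC.Rep Fermat.Agent.RT.MazurP Fermat.Agent.RT.AtP Module

variable {W : WeierstrassCurve ℤ} {p : ℕ} [Fact p.Prime] (hΔ : W.Δ ≠ 0)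

theorem matP_eq_one {σ : GQ}
    (h : ∀ x : EC.AtP.PointQBar W, (p : ℤ) • x = 0 → σ • x = x) : matP W p hΔ σ = 1 := by
  rw [matP_apply, show (residualRep W p hΔ).ρ σ = 1 from LinearMap.ext fun x => Subtype.ext
    (h x.1 ((Submodule.mem_torsionBy_iff _ _).mp x.2)), map_one]

theorem smul_eq_of_matP_eq_one {σ : GQ} (h : matP W p hΔ σ = 1)
    {x : EC.AtP.PointQBar W} (hx : (p : ℤ) • x = 0) : σ • x = x := by
  have h1 : (residualRep W p hΔ).ρ σ = 1 :=
    (LinearMap.toMatrixAlgEquiv (matBasis W p hΔ)).injective (by rw [← matP_apply, h, map_one])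
  exact congrArg Subtype.val
    (LinearMap.congr_fun h1 ⟨x, (Submodule.mem_torsionBy_iff _ _).mpr hx⟩)

variable {A : ValuationSubring QBar} (hA : A.LiesOverPrime p) (hp2 : p ≠ 2)
  (hdvd : (p : ℤ) ∣ W.Δ) (hc₄ : ¬ (p : ℤ) ∣ W.c₄)
include hA hp2 hdvd hc₄

/-- At a multiplicative place inertia has trace `χ + 1`. -/
theorem matP_inertia_of_mult : ∀ τ ∈ A.inertiaSubgroupIn ℚ,
    (matP W p hΔ τ).trace = (matP W p hΔ τ).det + 1 := by
  intro τ hτ
  rw [matP_trace, matP_det]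
  exact (exists_frame hA hp2 hΔ hdvd hc₄).2 τ hτ

/-- At a multiplicative place with `p ∣ v(Δ)` the field cut out is tame or has jump one. -/
theorem localHyp_of_mult (hv : p ∣ padicValInt p W.Δ) : LocalHyp A (matP W p hΔ) := by
  rcases wildKer_eq_tameKer_or_exists_wild hA hp2 hΔ hdvd hc₄ hv with h | ⟨Wd, hC, hC₁, ⟨x, hx, hne⟩, hgen⟩
  · exact Or.inl fun τ hτ => matP_eq_one hΔ (mem_wildKer.mp (h ▸ hτ)).2
  · exact Or.inr ⟨Wd, hC₁, fun τ hτ => matP_eq_one hΔ (mem_wildKer.mp (hC ▸ hτ)).2,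
      fun h => hne (smul_eq_of_matP_eq_one hΔ h hx), fun g hg => by
        obtain ⟨i, hi⟩ := hgen g hg
        exact ⟨i, hC ▸ hi⟩⟩

end Fermat.Agent.RT.Lift59.AtP

end
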